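import Fermat.Agent.Ribet.H764.I3Spec
import Fermat.Agent.S28.H88.Theta
import Fermat.Agent.S24.H117.EmbPlace

/-!
# Row 38, WALL-p, I3 leaf INC-AN: the ALGEBRAIC reduction (helper763)

`IsHoloSeries` quantifies over ALL places and ALL uniformisers.  This file reduces it to a
statement about the single differential `dj`:

* `IsTwDer.chain` : chain rule.  For a field `F ⊇ K` algebraic over `K(j)` (characteristic 0) and
  a twisted derivation `δ : F → R` (`δ (x y) = ρ x · δ y + ρ y · δ x`, `δ|_K = 0`) every `δ x` is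
  `ρ d · δ j` with `d ∈ F` ("`d = dx/dj`").
* `order_thetaL` : `θ = z d/dz` preserves a nonzero order (characteristic 0).
* `holo_at_place` : if `g = U₀ · θ(j)` in `K((q))` with `U₀ ∈ F`, and the place `P` of `F/K` is
  given by an embedding `σ : F → C((z))` (`f ∈ 𝒪_P ↔ 0 ≤ ord_z (σ f)`, constants are killed by
  `θ_z`) such that `1 ≤ ord_z (σ U₀ · θ_z (σ j))`, then for EVERY `t` with `ord_P t = 1`:
  `g = u · θ t` with `u ∈ 𝒪_P`.
* `isHoloSeries_of_local` : the resulting criterion for `I3.IsHoloSeries`.
-/

set_option autoImplicit false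

noncomputable section

open AlgebraicCurve HahnSeries Polynomial

namespace Fermat.Agent.Ribet.H763.IncAn

open Fermat.Agent.S28 Fermat.Agent.Ribet.H764

/-! ## 1. Twisted derivations and the chain rule -/

section Chain

variable {F R : Type*} [Field F] [CommRing R]

/-- `δ` is a `ρ`-derivation `F → R`. -/
structure IsTwDer (ρ : F →+* R) (δ : F → R) : Prop where
  add : ∀ x y, δ (x + y) = δ x + δ y
  mul : ∀ x y, δ (x * y) = ρ x * δ y + ρ y * δ x

namespace IsTwDer

variable {ρ : F →+* R} {δ : F → R} (h : IsTwDer ρ δ)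
include h

theorem zero : δ 0 = 0 := by
  have := h.add 0 0
  rw [add_zero] at this
  exact left_eq_add.mp this

theorem one : δ 1 = 0 := by
  have := h.mul 1 1
  rw [mul_one, map_one, one_mul] at this
  exact left_eq_add.mp this

theorem neg (x : F) : δ (-x) = -δ x := by
  have := h.add x (-x)
  rw [add_neg_cancel, h.zero] at this
  exact eq_neg_of_add_eq_zero_right this.symm

theorem pow (x : F) (n : ℕ) : δ (x ^ (n + 1)) = (n + 1 : ℕ) * ρ x ^ n * δ x := by
  induction n with
  | zero => simp
  | succ n ih =>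
    rw [pow_succ, h.mul, ih, map_pow]
    push_cast
    ring

theorem pow' (x : F) (n : ℕ) : δ (x ^ n) = ρ ((n : F) * x ^ (n - 1)) * δ x := by
  cases n with
  | zero => simp [h.one]
  | succ n =>
    rw [h.pow, map_mul, map_pow, map_natCast]
    simp

theorem inv (x : F) : δ x⁻¹ = ρ (-(x⁻¹ ^ 2)) * δ x := by
  rcases eq_or_ne x 0 with rfl | hx
  · simp [h.zero]
  · have h1 := h.mul x x⁻¹
    rw [mul_inv_cancel₀ hx, h.one] at h1
    have h2 : ρ x * ρ x⁻¹ = 1 := by rw [← map_mul, mul_inv_cancel₀ hx, map_one]
    have h3 : δ x⁻¹ = ρ x⁻¹ * (ρ x * δ x⁻¹) := by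
      rw [← mul_assoc, mul_comm (ρ x⁻¹), h2, one_mul]
    rw [h3, eq_neg_of_add_eq_zero_left h1.symm, map_neg, map_pow]
    ring

theorem eval (p : F[X]) (T : F) :
    δ (p.eval T) = (p.sum fun k c => δ c * ρ T ^ k) + ρ (p.derivative.eval T) * δ T := by
  induction p using Polynomial.induction_on' with
  | add p q hp hq =>
    rw [Polynomial.eval_add, h.add, hp, hq, Polynomial.derivative_add, Polynomial.eval_add,
      map_add, Polynomial.sum_add_index]
    · ring
    · intro i; rw [h.zero, zero_mul]
    · intro i a b; rw [h.add, add_mul]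
  | monomial n a =>
    rw [Polynomial.eval_monomial, h.mul, h.pow', Polynomial.sum_monomial_index,
      Polynomial.derivative_monomial, Polynomial.eval_monomial, map_pow]
    · simp only [map_mul, map_pow, map_natCast]
      ring
    · rw [h.zero, zero_mul]

variable {K : Type*} [Field K] [Algebra K F]

/-- The elements `x` with `δ x ∈ ρ(F) · δ j`. -/
def chainField (hK : ∀ c : K, δ (algebraMap K F c) = 0) (j : F) : IntermediateField K F where
  carrier := {x | ∃ d : F, δ x = ρ d * δ j}
  mul_mem' := by
    rintro x y ⟨dx, hx⟩ ⟨dy, hy⟩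
    refine ⟨x * dy + y * dx, ?_⟩
    rw [h.mul, hx, hy, map_add, map_mul, map_mul]
    ring
  one_mem' := ⟨0, by rw [h.one, map_zero, zero_mul]⟩
  add_mem' := by
    rintro x y ⟨dx, hx⟩ ⟨dy, hy⟩
    exact ⟨dx + dy, by rw [h.add, hx, hy, map_add]; ring⟩
  zero_mem' := ⟨0, by rw [h.zero, map_zero, zero_mul]⟩
  algebraMap_mem' := fun c => ⟨0, by rw [hK, map_zero, zero_mul]⟩
  inv_mem' := by
    rintro x ⟨dx, hx⟩
    exact ⟨-(x⁻¹ ^ 2) * dx, by rw [h.inv, hx, map_mul]; ring⟩

theorem mem_chainField {hK : ∀ c : K, δ (algebraMap K F c) = 0} {j x : F} :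
    x ∈ h.chainField hK j ↔ ∃ d : F, δ x = ρ d * δ j := Iff.rfl

theorem self_mem_chainField (hK : ∀ c : K, δ (algebraMap K F c) = 0) (j : F) :
    j ∈ h.chainField hK j := ⟨1, by rw [map_one, one_mul]⟩

theorem adjoin_le_chainField (hK : ∀ c : K, δ (algebraMap K F c) = 0) (j : F) :
    IntermediateField.adjoin K {j} ≤ h.chainField hK j := by
  rw [IntermediateField.adjoin_le_iff]
  rintro x hx
  rw [Set.mem_singleton_iff] at hx
  subst hx
  exact h.self_mem_chainField hK x

/-- **Chain rule.**  If `F` is algebraic over `K(j)` (characteristic `0`), then every `δ x` is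
`ρ d · δ j` for some `d ∈ F`. -/
theorem chain [CharZero K] (hK : ∀ c : K, δ (algebraMap K F c) = 0) (j : F)
    (x : F) (halg : IsAlgebraic (IntermediateField.adjoin K {j}) x) :
    ∃ d : F, δ x = ρ d * δ j := by
  classical
  set E := IntermediateField.adjoin K {j} with hE
  have : CharZero E := charZero_of_injective_algebraMap (algebraMap K E).injective
  have hint : IsIntegral E x := halg.isIntegral
  set m := minpoly E x with hm
  have hsep : m.Separable := (minpoly.irreducible hint).separable
  set p : F[X] := m.map (algebraMap E F) with hp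
  have hp0 : p.eval x = 0 := by
    rw [hp, Polynomial.eval_map, ← Polynomial.aeval_def, hm, minpoly.aeval]
  have hp1 : p.derivative.eval x ≠ 0 := by
    rw [hp, Polynomial.derivative_map, Polynomial.eval_map, ← Polynomial.aeval_def]
    exact hsep.aeval_derivative_ne_zero (minpoly.aeval E x)
  have hcoef : ∀ k : ℕ, ∃ d : F, δ (p.coeff k) = ρ d * δ j := by
    intro k
    rw [hp, Polynomial.coeff_map]
    exact h.adjoin_le_chainField hK j (m.coeff k).2
  choose d hd using hcoef
  have hev := h.eval p x
  rw [hp0, h.zero] at hev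
  have hsum : (p.sum fun k c => δ c * ρ x ^ k) = ρ (p.sum fun k _ => d k * x ^ k) * δ j := by
    rw [Polynomial.sum_def, Polynomial.sum_def, map_sum, Finset.sum_mul]
    refine Finset.sum_congr rfl fun k _ => ?_
    rw [hd k, map_mul, map_pow]
    ring
  rw [hsum] at hev
  set A := p.sum fun k _ => d k * x ^ k with hA
  set B := p.derivative.eval x with hB
  refine ⟨-(A * B⁻¹), ?_⟩
  have h2 : ρ B⁻¹ * ρ B = 1 := by rw [← map_mul, inv_mul_cancel₀ hp1, map_one]
  have h3 : δ x = ρ B⁻¹ * (ρ B * δ x) := by rw [← mul_assoc, h2, one_mul]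
  rw [h3, eq_neg_of_add_eq_zero_right hev.symm, map_neg, map_mul]
  ring

end IsTwDer

end Chain

/-! ## 2. `θ` and orders -/

section Order

variable {C : Type*} [Field C] [CharZero C]

theorem thetaL_ne_zero_of_order_ne_zero {x : LaurentSeries C} (hx : x.order ≠ 0) :
    thetaL C x ≠ 0 := by
  have hx0 : x ≠ 0 := by
    rintro rfl
    exact hx HahnSeries.order_zero
  intro h0
  have h1 : (thetaL C x).coeff x.order = 0 := by rw [h0, HahnSeries.coeff_zero]
  rw [thetaL_coeff] at h1
  rcases mul_eq_zero.mp h1 with h2 | h2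
  · exact hx (by exact_mod_cast h2)
  · exact hx0 (HahnSeries.coeff_order_eq_zero.mp h2)

omit [CharZero C] in
theorem order_thetaL_le {x : LaurentSeries C} (hy : thetaL C x ≠ 0) :
    x.order ≤ (thetaL C x).order := by
  apply HahnSeries.order_le_of_coeff_ne_zero
  have : (thetaL C x).coeff (thetaL C x).order ≠ 0 :=
    fun h => hy (HahnSeries.coeff_order_eq_zero.mp h)
  rw [thetaL_coeff] at this
  exact right_ne_zero_of_mul this

theorem order_thetaL {x : LaurentSeries C} (hx : x.order ≠ 0) :
    (thetaL C x).order = x.order := by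
  have hx0 : x ≠ 0 := by
    rintro rfl
    exact hx HahnSeries.order_zero
  have hy0 := thetaL_ne_zero_of_order_ne_zero hx
  apply le_antisymm
  · apply HahnSeries.order_le_of_coeff_ne_zero
    rw [thetaL_coeff]
    exact mul_ne_zero (by exact_mod_cast hx) (fun h => hx0 (HahnSeries.coeff_order_eq_zero.mp h))
  · apply HahnSeries.order_le_of_coeff_ne_zero
    have : (thetaL C x).coeff (thetaL C x).order ≠ 0 :=
      fun h => hy0 (HahnSeries.coeff_order_eq_zero.mp h)
    rw [thetaL_coeff] at this
    exact right_ne_zero_of_mul this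

end Order

/-! ## 3. Holomorphy at a place, for all uniformisers -/

section Holo

variable {K : Type} [Field K]

theorem isTheta_thetaL (x : LaurentSeries K) : I3.IsTheta x (thetaL K x) := fun _ => rfl

variable [CharZero K] (F : IntermediateField K (LaurentSeries K))

/-- **INC-AN / ALG.**  Holomorphy of `g dq/q = U₀ dj` at the place `P`, tested on `dj` through an
embedding `σ` defining `P`, implies the `IsHoloSeries` condition at `P` for every uniformiser. -/
theorem holo_at_place (j U₀ : F)
    (halg : ∀ x : F, IsAlgebraic (IntermediateField.adjoin K {j}) x)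
    (g : PowerSeries K)
    (hg : HahnSeries.ofPowerSeries ℤ K g = (U₀ : LaurentSeries K) * thetaL K (j : LaurentSeries K))
    (P : Place K F) {C : Type*} [Field C] [CharZero C] (σ : F →+* LaurentSeries C)
    (hσK : ∀ c : K, thetaL C (σ (algebraMap K F c)) = 0)
    (hP : ∀ f : F, f ∈ P.toValuationSubring ↔ 0 ≤ (σ f).order)
    (hloc : σ U₀ * thetaL C (σ j) = 0 ∨ 1 ≤ (σ U₀ * thetaL C (σ j)).order)
    (t : F) (ht : P.ord t = 1) :
    ∃ (u : F) (t' : LaurentSeries K),
      I3.IsTheta (t : LaurentSeries K) t' ∧ u ∈ P.toValuationSubring ∧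
        HahnSeries.ofPowerSeries ℤ K g = (u : LaurentSeries K) * t' := by
  -- the twisted derivation into `K((q)) × C((z))`
  set ρ : F →+* LaurentSeries K × LaurentSeries C := RingHom.prod F.val.toRingHom σ with hρ
  set δ : F → LaurentSeries K × LaurentSeries C :=
    fun x => (thetaL K (x : LaurentSeries K), thetaL C (σ x)) with hδ
  have hder : IsTwDer ρ δ :=
    { add := fun x y => by
        simp only [hδ, IntermediateField.coe_add, map_add, h88_thetaL_add, Prod.mk_add_mk]
      mul := fun x y => by
        simp only [hδ, hρ, IntermediateField.coe_mul, map_mul, h88_thetaL_mul,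
          RingHom.prod_apply, Prod.mk_mul_mk, Prod.mk_add_mk]
        refine Prod.ext ?_ ?_
        · show _ = (x : LaurentSeries K) * _ + (y : LaurentSeries K) * _
          ring
        · show _ = σ x * _ + σ y * _
          ring }
  have hK0 : ∀ c : K, δ (algebraMap K F c) = 0 := by
    intro c
    refine Prod.ext ?_ (hσK c)
    show thetaL K ((algebraMap K F c : F) : LaurentSeries K) = 0
    have : ((algebraMap K F c : F) : LaurentSeries K) = HahnSeries.single 0 c := by
      rw [← ModularCurve.algebraMap_laurentSeries_eq_single]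
      rfl
    rw [this, h88_thetaL_single_zero]
  obtain ⟨d, hd⟩ := hder.chain hK0 j t (halg t)
  have hd1 : thetaL K (t : LaurentSeries K) = (d : LaurentSeries K) * thetaL K (j : LaurentSeries K) :=
    congrArg Prod.fst hd
  have hd2 : thetaL C (σ t) = σ d * thetaL C (σ j) := congrArg Prod.snd hd
  -- the multiplicity
  have hv : P.toValuationSubring = Fermat.Agent.S24.H117.embRing σ := by
    ext f
    rw [hP f]
    rfl
  obtain ⟨k, hk, hmult⟩ := Fermat.Agent.S24.H117.exists_mult_of_eq σ P hv
  have hkt : (σ t).order = k := by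
    have := hmult t
    rw [ht, mul_one] at this
    exact this
  have hk0 : (σ t).order ≠ 0 := by
    rw [hkt]
    exact_mod_cast hk.ne'
  have hθt : thetaL C (σ t) ≠ 0 := thetaL_ne_zero_of_order_ne_zero hk0
  have hθt' : (thetaL C (σ t)).order = k := by rw [order_thetaL hk0, hkt]
  have hσd : σ d ≠ 0 := by
    intro h0
    rw [h0, zero_mul] at hd2
    exact hθt hd2
  have hd0 : d ≠ 0 := fun h0 => hσd (by rw [h0, map_zero])
  have hdL : (d : LaurentSeries K) ≠ 0 := fun h0 => hd0 (Subtype.ext h0)
  refine ⟨U₀ * d⁻¹, thetaL K (t : LaurentSeries K), isTheta_thetaL _, ?_, ?_⟩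
  · -- membership
    rw [hP]
    have hw : σ (U₀ * d⁻¹) * thetaL C (σ t) = σ U₀ * thetaL C (σ j) := by
      rw [hd2, map_mul, map_inv₀]
      field_simp
    rcases hloc with h0 | h1
    · rw [h0] at hw
      rcases mul_eq_zero.mp hw with h | h
      · rw [h, HahnSeries.order_zero]
      · exact absurd h hθt
    · rw [← hw] at h1
      by_cases hu0 : σ (U₀ * d⁻¹) = 0
      · rw [hu0, HahnSeries.order_zero]
      rw [HahnSeries.order_mul hu0 hθt, hθt'] at h1
      have hm := hmult (U₀ * d⁻¹)
      change (σ (U₀ * d⁻¹)).order = _ at hm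
      rw [hm] at h1 ⊢
      have hk' : (0 : ℤ) < k := by exact_mod_cast hk
      by_contra hneg
      push Not at hneg
      have : P.ord (U₀ * d⁻¹) ≤ -1 := by
        by_contra h'
        push Not at h'
        have : 0 ≤ P.ord (U₀ * d⁻¹) := by omega
        exact absurd (mul_nonneg hk'.le this) (not_le.mpr hneg)
      nlinarith
  · rw [hg, hd1, IntermediateField.coe_mul, IntermediateField.coe_inv]
    field_simp

end Holo

/-! ## 4. The criterion for `I3.IsHoloSeries` -/

section Criterion

variable {K : Type} [Field K] [CharZero K] {M : ℕ} [NeZero M]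

/-- **INC-AN from `dj`.**  `g` is a holomorphic series (`I3.IsHoloSeries`) as soon as
`g = U₀ · θ(j)` with `U₀ ∈ F`, and every place of `F` is defined by an embedding `σ` into some
`C((z))` with `ord_z (σ U₀ · θ_z (σ j)) ≥ 1`. -/
theorem isHoloSeries_of_local (j U₀ : ModularCurve.modularFunctionFieldFullC K M)
    (halg : ∀ x : ModularCurve.modularFunctionFieldFullC K M,
      IsAlgebraic (IntermediateField.adjoin K {j}) x)
    (g : PowerSeries K)
    (hg : HahnSeries.ofPowerSeries ℤ K g = (U₀ : LaurentSeries K) * thetaL K (j : LaurentSeries K))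
    (hloc : ∀ P : Place K (ModularCurve.modularFunctionFieldFullC K M),
      ∃ σ : ModularCurve.modularFunctionFieldFullC K M →+* LaurentSeries ℂ,
        (∀ c : K, thetaL ℂ (σ (algebraMap K _ c)) = 0) ∧
        (∀ f, f ∈ P.toValuationSubring ↔ 0 ≤ (σ f).order) ∧
        (σ U₀ * thetaL ℂ (σ j) = 0 ∨ 1 ≤ (σ U₀ * thetaL ℂ (σ j)).order)) :
    I3.IsHoloSeries K M g := by
  intro Q t ht
  obtain ⟨σ, h1, h2, h3⟩ := hloc Q
  exact holo_at_place _ j U₀ halg g hg Q σ h1 h2 h3 t ht

end Criterion

end Fermat.Agent.Ribet.H763.IncAn
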